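import Fermat.Agent.LT.T7.H616.ClassModelSpec
import Fermat.Agent.LT.H129.Local

/-!
# Row LT, tower T7, node T7.L2.2.N.1 `ClassModelC`, LEAF CM.05 `CommGIC616` (helper166, OFF-MAIN)

`commGIC166 (K K') : CM616.CommGIC616 K K'` -- on the functions `ψ` such that `ψ` and
`cosetOp H ψ` are right invariant under `U(𝔑₀)`, the double coset operator `[U g U]` of a bad
element `g` commutes with the sum of the right translates by a finite set `H` of elements
supported at `o j`.

Proof.  `h = u₁ g u₂ ∈ Hg`, `g` trivial at `v = o j`.  Let `a_i` be the local part of `u_i` at `v`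
(`locPart166`, built on helper129's `locFin129`); `a_i ∈ U(𝔑₀)` and `h = t a₁ a₂` with `t` trivial
at `v`.  Then `(cosetOp H ψ)(x h) = (cosetOp H ψ)(x t) = ∑ ψ(x t h') = ∑ ψ(x h' t) = ∑ ψ(x h' h)`
(`t` commutes with the elements supported at `v`).  Only the first property of
`IsDblCosetSystem` and `IsBad`, `IsL2Data.deg` are used.
-/

set_option autoImplicit false

open IsDedekindDomain NumberField

noncomputable section

namespace Fermat.Agent.LT.T7.H166

open Fermat.Agent.LT.H556 Fermat.Agent.LT.H556.A0 Fermat.Agent.LT.T7 Fermat.Agent.LT.H129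

section Local

variable {K : Type} [Field K] [NumberField K]

/-- The local part of `h` at `v`: the element supported at `v` with the component of `h`. -/
def locPart166 (v : HeightOneSpectrum (𝓞 K)) (h : G K) : G K :=
  locFin129 v (finCompHom129 v h)

theorem finCompHom_locPart166 (v : HeightOneSpectrum (𝓞 K)) (h : G K) :
    finCompHom129 v (locPart166 v h) = finCompHom129 v h :=
  finCompHom129_locFin129 v _

theorem finCompHom_locPart_ne166 {v v' : HeightOneSpectrum (𝓞 K)} (hne : v' ≠ v) (h : G K) :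
    finCompHom129 v' (locPart166 v h) = 1 :=
  finCompHom129_locFin129_of_ne v _ hne

theorem isLocalAtFin_locPart166 (v : HeightOneSpectrum (𝓞 K)) (h : G K) :
    IsLocalAtFin v (locPart166 v h) :=
  isLocalAtFin_locFin129 v _

theorem locPart_inv166 (v : HeightOneSpectrum (𝓞 K)) (h : G K) :
    (locPart166 v h)⁻¹ = locPart166 v h⁻¹ := by
  unfold locPart166
  rw [map_inv, map_inv]

theorem zero_mem_idealClosure166 (𝔫 : Ideal (𝓞 K)) (v : HeightOneSpectrum (𝓞 K)) :
    (0 : v.adicCompletion K) ∈ idealClosure 𝔫 v := by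
  apply subset_closure
  exact ⟨0, 𝔫.zero_mem, by simp⟩

/-- The local part of an element of `U(𝔫)` is in `U(𝔫)`. -/
theorem inLevelGroup_locPart166 {𝔫 : Ideal (𝓞 K)} {u : G K} (hu : InLevelGroup 𝔫 u)
    (v : HeightOneSpectrum (𝓞 K)) : InLevelGroup 𝔫 (locPart166 v u) := by
  refine ⟨fun w => (isLocalAtFin_locPart166 v u).1 w, fun v' i j => ?_⟩
  by_cases hv : v' = v
  · subst hv
    have e1 : finComp v' (locPart166 v' u) = finComp v' u := by
      rw [← coe_finCompHom129, finCompHom_locPart166, coe_finCompHom129]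
    have e2 : finComp v' (locPart166 v' u)⁻¹ = finComp v' u⁻¹ := by
      rw [locPart_inv166, ← coe_finCompHom129, finCompHom_locPart166, coe_finCompHom129]
    rw [e1, e2]
    exact hu.2 v' i j
  · have e1 : finComp v' (locPart166 v u) = 1 := by
      rw [← coe_finCompHom129, finCompHom_locPart_ne166 hv]
      rfl
    have e2 : finComp v' (locPart166 v u)⁻¹ = 1 := by
      rw [locPart_inv166, ← coe_finCompHom129, finCompHom_locPart_ne166 hv]
      rfl
    rw [e1, e2, sub_self, Matrix.zero_apply]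
    exact ⟨zero_mem_idealClosure166 𝔫 v', zero_mem_idealClosure166 𝔫 v'⟩

/-- An element supported at `w` commutes with an element which is trivial at `w`
(= helper83's `mul_comm_of_local83`, reproved on helper129's kit). -/
theorem mul_comm_of_local166 {w : HeightOneSpectrum (𝓞 K)} {h u : G K}
    (hh : IsLocalAtFin w h) (hu : TrivAtFin w u) : h * u = u * h := by
  rw [isLocalAtFin_iff129] at hh
  rw [trivAtFin_iff129] at hu
  apply G_ext129
  · intro w'
    rw [map_mul, map_mul, hh.1 w', one_mul, mul_one]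
  · intro v
    by_cases e : v = w
    · subst e
      rw [map_mul, map_mul, hu, one_mul, mul_one]
    · rw [map_mul, map_mul, hh.2 v e, one_mul, mul_one]

/-- An element `u₁ g u₂` of `U(𝔫) g U(𝔫)`, `g` trivial at `v`, is `t a₁ a₂` with `t` trivial at
`v` and `a₁, a₂ ∈ U(𝔫)`. -/
theorem exists_decomp166 {𝔫 : Ideal (𝓞 K)} {v : HeightOneSpectrum (𝓞 K)} {g h : G K}
    (hg : TrivAtFin v g)
    (hh : ∃ u₁ u₂ : G K, InLevelGroup 𝔫 u₁ ∧ InLevelGroup 𝔫 u₂ ∧ h = u₁ * g * u₂) :
    ∃ t a₁ a₂ : G K, TrivAtFin v t ∧ InLevelGroup 𝔫 a₁ ∧ InLevelGroup 𝔫 a₂ ∧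
      h = t * a₁ * a₂ := by
  obtain ⟨u₁, u₂, h1, h2, rfl⟩ := hh
  refine ⟨u₁ * g * u₂ * (locPart166 v u₁ * locPart166 v u₂)⁻¹, locPart166 v u₁,
    locPart166 v u₂, ?_, inLevelGroup_locPart166 h1 v, inLevelGroup_locPart166 h2 v, ?_⟩
  · rw [trivAtFin_iff129] at hg ⊢
    rw [map_mul, map_mul, map_mul, map_inv, map_mul, hg, mul_one, finCompHom_locPart166,
      finCompHom_locPart166, mul_inv_cancel]
  · group

/-- The commutation, for functions on `GL₂(𝔸_K)`. -/
theorem cosetOp_comm166 {𝔫 : Ideal (𝓞 K)} {v : HeightOneSpectrum (𝓞 K)} {g : G K}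
    {Hg H : Finset (G K)} (hg : TrivAtFin v g)
    (hHg : ∀ h ∈ Hg, ∃ u₁ u₂ : G K, InLevelGroup 𝔫 u₁ ∧ InLevelGroup 𝔫 u₂ ∧ h = u₁ * g * u₂)
    (hH : ∀ h ∈ H, IsLocalAtFin v h) {ψ : G K → ℂ}
    (hψ : ∀ u : G K, InLevelGroup 𝔫 u → ∀ x : G K, ψ (x * u) = ψ x)
    (hHψ : ∀ u : G K, InLevelGroup 𝔫 u → ∀ x : G K, cosetOp H ψ (x * u) = cosetOp H ψ x)
    (x : G K) : cosetOp Hg (cosetOp H ψ) x = cosetOp H (cosetOp Hg ψ) x := by
  have hR : cosetOp H (cosetOp Hg ψ) x = ∑ h ∈ Hg, ∑ h' ∈ H, ψ (x * h' * h) := by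
    unfold cosetOp
    exact Finset.sum_comm
  rw [hR]
  show ∑ h ∈ Hg, cosetOp H ψ (x * h) = _
  refine Finset.sum_congr rfl fun h hh => ?_
  obtain ⟨t, a₁, a₂, ht, ha₁, ha₂, rfl⟩ := exists_decomp166 hg (hHg h hh)
  have e1 : cosetOp H ψ (x * (t * a₁ * a₂)) = cosetOp H ψ (x * t) := by
    have e : x * (t * a₁ * a₂) = x * t * a₁ * a₂ := by simp only [mul_assoc]
    rw [e, hHψ a₂ ha₂, hHψ a₁ ha₁]
  rw [e1]
  show ∑ h' ∈ H, ψ (x * t * h') = _
  refine Finset.sum_congr rfl fun h' hh' => ?_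
  have hc : h' * t = t * h' := mul_comm_of_local166 (hH h' hh') ht
  have e2 : x * h' * (t * a₁ * a₂) = x * (h' * t) * a₁ * a₂ := by simp only [mul_assoc]
  rw [e2, hψ a₂ ha₂, hψ a₁ ha₁, hc, mul_assoc]

end Local

/-- **LEAF CM.05 `CommGIC616`.** -/
theorem commGIC166 (K K' : Type) [Field K] [NumberField K] [Field K'] [NumberField K']
    [Algebra K K'] : CM616.CommGIC616 K K' := by
  intro ℓ Φ Dt hctx g Hg hbad hHg j hj H hH ψ hψ hHψ x
  have hgv : TrivAtFin (Dt.o j) g :=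
    hbad.2 (Dt.o j) (Or.inr ⟨j, by rw [hctx.data.deg]; exact hj, rfl⟩)
  exact cosetOp_comm166 hgv hHg.1 hH hψ hHψ x

end Fermat.Agent.LT.T7.H166

end
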